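/-
S19 (finite flat models of `J₀(N)[ℓ^k]`), abstract algebra block, part 1 (helper12).

`Gal(ℚ̄/ℚ)`-equivariant functions `M → ℚ̄` on a finite `Gal`-set:
* `linearIndependent_of_equivariant`: a family of equivariant functions which is linearly
  independent over a subring `R ⊆ ℚ` is linearly independent over `ℚ̄` (Galois descent);
* `span_eq_top_of_separates`: a subring of functions containing the constants `1` and separating
  the points of a finite set spans all functions over `ℚ̄` (finite Stone–Weierstrass);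
* `exists_eq_eval`: every `ℚ̄`-algebra homomorphism `(M → ℚ̄) → ℚ̄` is an evaluation.
-/
import Mathlib
import Fermat.Agent.S51.GaloisFixed

set_option autoImplicit false

namespace Fermat.Agent.S19.Descent

local notation "Qb" => AlgebraicClosure ℚ
local notation "Gal" => (AlgebraicClosure ℚ ≃ₐ[ℚ] AlgebraicClosure ℚ)

variable {M : Type*}

/-- `φ : M → ℚ̄` is equivariant for the action `act` of `Gal(ℚ̄/ℚ)` on `M`. -/
def IsEquivariant (act : Gal → M → M) (φ : M → Qb) : Prop :=
  ∀ σ x, φ (act σ x) = σ (φ x)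

section Indep

variable (R : Subring ℚ) (act : Gal → M → M) (hact : ∀ σ, Function.Surjective (act σ))

/-- a relation with coefficients in `ℚ` among functions gives one with coefficients in `ℤ ⊆ R` -/
theorem exists_int_relation {ι : Type*} (s : Finset ι) (q : ι → ℚ) :
    ∃ (d : ℤ) (n : ι → ℤ), d ≠ 0 ∧ ∀ i ∈ s, (d : ℚ) * q i = n i := by
  classical
  induction s using Finset.induction_on with
  | empty => exact ⟨1, fun _ => 0, one_ne_zero, fun i hi => absurd hi (Finset.notMem_empty i)⟩
  | insert a s ha ih =>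
    obtain ⟨d, n, hd, hn⟩ := ih
    refine ⟨d * (q a).den, fun i => if i = a then d * (q a).num else n i * (q a).den,
      mul_ne_zero hd (by exact_mod_cast (q a).den_ne_zero), fun i hi => ?_⟩
    rcases Finset.mem_insert.1 hi with rfl | hi'
    · show ((d * ((q i).den : ℤ) : ℤ) : ℚ) * q i =
        ((if i = i then d * (q i).num else n i * (q i).den : ℤ) : ℚ)
      rw [if_pos rfl]
      push_cast
      have h := Rat.mul_den_eq_num (q i)
      rw [mul_assoc, mul_comm ((q i).den : ℚ), h]
    · have hia : i ≠ a := fun h => ha (h ▸ hi')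
      show ((d * ((q a).den : ℤ) : ℤ) : ℚ) * q i =
        ((if i = a then d * (q a).num else n i * (q a).den : ℤ) : ℚ)
      rw [if_neg hia]
      push_cast
      rw [mul_right_comm, hn i hi']

include hact in
/-- **Galois descent of linear independence.** -/
theorem linearIndependent_of_equivariant {ι : Type*} (φ : ι → M → Qb)
    (heq : ∀ i, IsEquivariant act (φ i)) (hli : LinearIndependent R φ) :
    LinearIndependent Qb φ := by
  classical
  rw [linearIndependent_iff']
  -- strong induction on the size of the support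
  suffices H : ∀ (n : ℕ) (s : Finset ι), s.card = n → ∀ g : ι → Qb,
      ∑ i ∈ s, g i • φ i = 0 → ∀ i ∈ s, g i = 0 from fun s g hg i hi => H _ s rfl g hg i hi
  intro n
  induction n using Nat.strong_induction_on with
  | _ n IH =>
  intro s hs g hg
  by_contra hne
  push Not at hne
  obtain ⟨i₀, hi₀, hgi₀⟩ := hne
  -- normalise `g i₀ = 1`
  set a : ι → Qb := fun i => (g i₀)⁻¹ * g i with ha
  have ha0 : a i₀ = 1 := inv_mul_cancel₀ hgi₀
  have hrel : ∑ i ∈ s, a i • φ i = 0 := by
    have : ∑ i ∈ s, a i • φ i = (g i₀)⁻¹ • ∑ i ∈ s, g i • φ i := by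
      rw [Finset.smul_sum]
      exact Finset.sum_congr rfl fun i _ => by rw [ha, mul_smul]
    rw [this, hg, smul_zero]
  -- all coefficients are Galois-fixed
  have hfix : ∀ σ : Gal, ∀ i ∈ s, σ (a i) = a i := by
    intro σ
    -- the relation obtained by applying `σ`
    have hσ : ∑ i ∈ s, σ (a i) • φ i = 0 := by
      funext y
      obtain ⟨x, rfl⟩ := hact σ y
      have h1 := congrFun hrel x
      simp only [Finset.sum_apply, Pi.smul_apply, smul_eq_mul, Pi.zero_apply] at h1 ⊢
      have h2 := congrArg σ h1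
      rw [map_sum, map_zero] at h2
      have h2' : ∑ i ∈ s, σ (a i) * φ i (act σ x) = ∑ i ∈ s, σ (a i * φ i x) :=
        Finset.sum_congr rfl fun i _ => by rw [heq i σ x, ← map_mul]
      rw [h2']
      exact h2
    -- subtract: a relation supported on `s.erase i₀`
    have hsub : ∑ i ∈ s.erase i₀, (σ (a i) - a i) • φ i = 0 := by
      have h3 : ∑ i ∈ s, (σ (a i) - a i) • φ i = 0 := by
        simp only [sub_smul, Finset.sum_sub_distrib, hσ, hrel, sub_zero]
      rw [← Finset.add_sum_erase s _ hi₀, ha0, map_one, sub_self, zero_smul, zero_add] at h3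
      exact h3
    have hcard : (s.erase i₀).card < n := by
      rw [Finset.card_erase_of_mem hi₀, hs]
      exact Nat.sub_lt (hs ▸ Finset.card_pos.2 ⟨i₀, hi₀⟩) one_pos
    intro i hi
    by_cases hii : i = i₀
    · rw [hii, ha0, map_one]
    · exact sub_eq_zero.1
        (IH _ hcard (s.erase i₀) rfl (fun i => σ (a i) - a i) hsub i
          (Finset.mem_erase.2 ⟨hii, hi⟩))
  -- so the coefficients are rational
  have hrat : ∀ i ∈ s, ∃ q : ℚ, algebraMap ℚ Qb q = a i := fun i hi =>
    Fermat.Agent.S51.exists_rat_of_fixed (a i) fun σ => hfix σ i hi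
  choose! q hq using hrat
  obtain ⟨d, m, hd, hm⟩ := exists_int_relation s q
  -- an integral relation
  have hint : ∑ i ∈ s, ((m i : ℤ) : R) • φ i = 0 := by
    have h4 : ∀ i ∈ s, ((m i : ℤ) : R) • φ i = (algebraMap ℚ Qb (d : ℚ)) • (a i • φ i) := by
      intro i hi
      funext x
      simp only [Pi.smul_apply, smul_eq_mul]
      rw [← hq i hi, ← mul_assoc, ← map_mul, hm i hi, Algebra.smul_def]
      congr 1
    rw [Finset.sum_congr rfl h4, ← Finset.smul_sum, hrel, smul_zero]
  have hm0 := (linearIndependent_iff'.1 hli) s (fun i => ((m i : ℤ) : R)) hint i₀ hi₀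
  have hmi₀ : m i₀ = 0 := by
    have h5 : (((m i₀ : ℤ) : R) : ℚ) = 0 := by rw [hm0]; rfl
    exact_mod_cast h5
  have h6 := hm i₀ hi₀
  have hq1 : q i₀ = 1 := by
    have h7 := hq i₀ hi₀
    rw [ha0] at h7
    exact (algebraMap ℚ Qb).injective (by rw [h7, map_one])
  rw [hq1, hmi₀, mul_one] at h6
  exact hd (by exact_mod_cast h6)

end Indep

section Span

variable [Finite M]

/-- **finite Stone–Weierstrass**: a multiplicatively closed set of functions on a finite set which
contains `1` and separates the points spans all functions. -/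
theorem span_eq_top_of_separates (S : Submonoid (M → Qb))
    (hsep : ∀ x y : M, x ≠ y → ∃ φ ∈ S, φ x ≠ φ y) :
    Submodule.span Qb (S : Set (M → Qb)) = ⊤ := by
  classical
  have := Fintype.ofFinite M
  -- the span is a subalgebra
  set A : Subalgebra Qb (M → Qb) := Algebra.adjoin Qb (S : Set (M → Qb)) with hA
  have hAspan : Subalgebra.toSubmodule A = Submodule.span Qb (S : Set (M → Qb)) := by
    rw [hA, Algebra.adjoin_eq_span, Submonoid.closure_eq]
  rw [← hAspan, eq_top_iff]
  -- indicator functions
  have hδ : ∀ x : M, (Pi.single x (1 : Qb) : M → Qb) ∈ A := by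
    intro x
    have hfac : ∀ y : M, y ≠ x → ∃ ψ ∈ A, ψ x = 1 ∧ ψ y = 0 := by
      intro y hy
      obtain ⟨φ, hφ, hne⟩ := hsep x y (Ne.symm hy)
      have hφA : φ ∈ A := Algebra.subset_adjoin hφ
      refine ⟨(φ x - φ y)⁻¹ • (φ - algebraMap Qb (M → Qb) (φ y)),
        A.smul_mem (A.sub_mem hφA (A.algebraMap_mem _)) _, ?_, ?_⟩
      · simp only [Pi.smul_apply, Pi.sub_apply, Pi.algebraMap_apply, Algebra.algebraMap_self,
          RingHom.id_apply, smul_eq_mul]
        exact inv_mul_cancel₀ (sub_ne_zero.2 hne)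
      · simp only [Pi.smul_apply, Pi.sub_apply, Pi.algebraMap_apply, Algebra.algebraMap_self,
          RingHom.id_apply, smul_eq_mul, sub_self, mul_zero]
    choose! ψ hψA hψx hψy using hfac
    have hprod : (Pi.single x (1 : Qb) : M → Qb) = ∏ y ∈ Finset.univ.erase x, ψ y := by
      funext z
      rw [Finset.prod_apply]
      by_cases hz : z = x
      · subst hz
        rw [Pi.single_eq_same]
        exact (Finset.prod_eq_one fun y hy => hψx y (Finset.ne_of_mem_erase hy)).symm
      · rw [Pi.single_eq_of_ne hz]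
        exact (Finset.prod_eq_zero (f := fun c => ψ c z)
          (Finset.mem_erase.2 ⟨hz, Finset.mem_univ z⟩) (hψy z hz)).symm
    rw [hprod]
    exact A.prod_mem fun y hy => hψA y (Finset.ne_of_mem_erase hy)
  intro f _
  have hf : f = ∑ x : M, f x • (Pi.single x (1 : Qb) : M → Qb) := by
    funext z
    rw [Finset.sum_apply]
    simp only [Pi.smul_apply, smul_eq_mul]
    rw [Finset.sum_eq_single z]
    · rw [Pi.single_eq_same, mul_one]
    · intro y _ hy
      rw [Pi.single_eq_of_ne (Ne.symm hy), mul_zero]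
    · intro h
      exact absurd (Finset.mem_univ z) h
  rw [hf]
  exact Subalgebra.sum_mem _ fun x _ => Subalgebra.smul_mem _ (hδ x) _

/-- every `ℚ̄`-algebra homomorphism `(M → ℚ̄) → ℚ̄` is the evaluation at a point -/
theorem exists_eq_eval (χ : (M → Qb) →ₐ[Qb] Qb) : ∃ x : M, ∀ f : M → Qb, χ f = f x := by
  classical
  have := Fintype.ofFinite M
  have h0 : (∑ x : M, (Pi.single x (1 : Qb) : M → Qb)) = 1 := by
    funext z
    rw [Finset.sum_apply, Finset.sum_eq_single z]
    · rw [Pi.single_eq_same, Pi.one_apply]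
    · intro y _ hy
      rw [Pi.single_eq_of_ne (Ne.symm hy)]
    · intro h
      exact absurd (Finset.mem_univ z) h
  have h1 : ∑ x : M, χ (Pi.single x (1 : Qb)) = 1 := by
    rw [← map_sum, h0, map_one]
  obtain ⟨x, -, hx⟩ : ∃ x ∈ (Finset.univ : Finset M), χ (Pi.single x (1 : Qb)) ≠ 0 := by
    by_contra hcon
    push Not at hcon
    rw [Finset.sum_eq_zero hcon] at h1
    exact zero_ne_one h1
  refine ⟨x, fun f => ?_⟩
  have h2 : f * Pi.single x (1 : Qb) = f x • (Pi.single x (1 : Qb) : M → Qb) := by
    funext z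
    simp only [Pi.mul_apply, Pi.smul_apply, smul_eq_mul]
    by_cases hz : z = x
    · rw [hz]
    · rw [Pi.single_eq_of_ne hz, mul_zero, mul_zero]
  have h3 := congrArg χ h2
  rw [map_mul, map_smul, smul_eq_mul] at h3
  exact mul_right_cancel₀ hx h3

end Span

end Fermat.Agent.S19.Descent
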