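/-
S19, abstract algebra block, part 2 (helper12): tensors of function modules as functions of two
variables.

For `R`-linear maps `i : P → (X → ℚ̄)`, `j : N → (Y → ℚ̄)`,
`evL i j : P ⊗[R] N → (X × Y → ℚ̄)`, `a ⊗ n ↦ ((x, y) ↦ i a x * j n y)`. If `P` has an `R`-basis whose
image under `i` is linearly independent over `ℚ̄` and `j` is injective, then `evL i j` is injective.
-/
import Mathlib
import Fermat.Agent.S19.Descent

set_option autoImplicit false

open TensorProduct

namespace Fermat.Agent.S19.EvalTensor

local notation "Qb" => AlgebraicClosure ℚ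

variable {R : Subring ℚ} {X Y : Type*}

section

variable {P : Type*} [AddCommMonoid P] [Module R P] (i : P →ₗ[R] (X → Qb))
  {N : Type*} [AddCommMonoid N] [Module R N] (j : N →ₗ[R] (Y → Qb))

/-- `a ⊗ n ↦ ((x, y) ↦ i a x * j n y)` -/
noncomputable def evL : P ⊗[R] N →ₗ[R] (X × Y → Qb) :=
  TensorProduct.lift
    (LinearMap.mk₂ R (fun (a : P) (n : N) => fun p : X × Y => i a p.1 * j n p.2)
      (fun a a' n => by funext p; simp [add_mul])
      (fun r a n => by funext p; simp [Algebra.smul_def, mul_assoc])
      (fun a n n' => by funext p; simp [mul_add])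
      (fun r a n => by funext p; simp [Algebra.smul_def, mul_left_comm]))

@[simp] theorem evL_tmul (a : P) (n : N) (p : X × Y) :
    evL i j (a ⊗ₜ[R] n) p = i a p.1 * j n p.2 := by
  simp [evL]

theorem evL_injective {ι : Type*} (b : Module.Basis ι R P)
    (hb : LinearIndependent Qb (fun k => i (b k)))
    (hj : Function.Injective j) : Function.Injective (evL i j) := by
  classical
  intro w w' hw
  obtain ⟨c, rfl⟩ := TensorProduct.eq_repr_basis_left b w
  obtain ⟨c', rfl⟩ := TensorProduct.eq_repr_basis_left b w'
  have hc : c = c' := by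
    ext k
    apply hj
    funext y
    -- the relation at `y`
    set s := c.support ∪ c'.support with hs
    have hsum : ∀ d : ι →₀ N, d.support ⊆ s → ∀ x : X,
        evL i j (d.sum fun m n => b m ⊗ₜ[R] n) (x, y) = ∑ m ∈ s, j (d m) y * i (b m) x := by
      intro d hd x
      rw [Finsupp.sum, map_sum, Finset.sum_apply]
      simp only [evL_tmul]
      rw [Finset.sum_subset hd]
      · exact Finset.sum_congr rfl fun m _ => mul_comm _ _
      · intro m _ hm
        rw [Finsupp.notMem_support_iff.1 hm, map_zero, Pi.zero_apply, mul_zero]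
    have hrel : ∑ m ∈ s, (j (c m) y - j (c' m) y) • i (b m) = 0 := by
      funext x
      have h1 := congrFun hw (x, y)
      rw [hsum c Finset.subset_union_left x, hsum c' Finset.subset_union_right x] at h1
      rw [Finset.sum_apply]
      simp only [Pi.smul_apply, smul_eq_mul, Pi.zero_apply, sub_mul, Finset.sum_sub_distrib]
      rw [h1, sub_self]
    by_cases hk : k ∈ s
    · exact sub_eq_zero.1
        ((linearIndependent_iff'.1 hb) s (fun m => j (c m) y - j (c' m) y) hrel k hk)
    · rw [hs, Finset.notMem_union] at hk
      rw [Finsupp.notMem_support_iff.1 hk.1, Finsupp.notMem_support_iff.1 hk.2]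
  rw [hc]

end

end Fermat.Agent.S19.EvalTensor
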