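/-
S19 (finite flat models of `J₀(N)[ℓ^k]`), abstract algebra block, part 3 (helper12):
**a Hopf order in the algebra of Galois-equivariant functions on a finite Galois module is a finite
flat cocommutative Hopf algebra whose `ℚ̄`-points are the module.**

`R ⊆ ℚ` a subring which is a PID (in the application `R = ℤ_(ℓ)`), `M` a finite abelian group with an
action `act` of `Gal(ℚ̄/ℚ)`, `H` an `R`-subalgebra of `M → ℚ̄` with `IsHopfOrder act H`:
finitely generated, consisting of equivariant functions, separating the points of `M`, and stable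
under `φ ↦ φ(x + y)` (into the image of `H ⊗ H`), `φ ↦ φ(-x)`, `φ ↦ φ(0) ∈ R`.

Output: `exists_hopfAlgebra`, the conclusion of the frozen statements S19/S32 for `M`.
-/
import Mathlib
import Fermat.Agent.S19.Descent
import Fermat.Agent.S19.EvalTensor

set_option autoImplicit false
set_option linter.unusedSectionVars false

open TensorProduct

namespace Fermat.Agent.S19.HopfOrder

open Fermat.Agent.S19.Descent Fermat.Agent.S19.EvalTensor

local notation "Qb" => AlgebraicClosure ℚ
local notation "Gal" => (AlgebraicClosure ℚ ≃ₐ[ℚ] AlgebraicClosure ℚ)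

variable {R : Subring ℚ}

/-! ### Generalities -/

/-- the scalars act without torsion on functions -/
theorem smul_eq_zero_iff {X : Type*} (r : R) (φ : X → Qb) : r • φ = 0 ↔ r = 0 ∨ φ = 0 := by
  constructor
  · intro h
    by_cases hr : r = 0
    · exact Or.inl hr
    · right
      funext x
      have h1 := congrFun h x
      rw [Pi.smul_apply, Algebra.smul_def, Pi.zero_apply] at h1
      rcases mul_eq_zero.1 h1 with h2 | h2
      · exfalso
        apply hr
        have h3 : algebraMap ℚ Qb ((r : R) : ℚ) = 0 := h2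
        rw [map_eq_zero] at h3
        exact Subtype.ext h3
      · exact h2
  · rintro (rfl | rfl)
    · exact zero_smul _ _
    · exact smul_zero _

instance instIsTorsionFreeFun {X : Type*} : Module.IsTorsionFree R (X → Qb) where
  isSMulRegular r hr := by
    intro φ ψ h
    have h1 : r • (φ - ψ) = 0 := by rw [smul_sub, sub_eq_zero]; exact h
    rcases (smul_eq_zero_iff r (φ - ψ)).1 h1 with h2 | h2
    · exact absurd h2 hr.ne_zero
    · exact sub_eq_zero.1 h2

instance instIsTorsionFreeSub {X : Type*} (H : Subalgebra R (X → Qb)) :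
    Module.IsTorsionFree R ↥H where
  isSMulRegular r hr := by
    intro φ ψ h
    apply Subtype.ext
    exact (instIsTorsionFreeFun (R := R) (X := X)).isSMulRegular hr
      (congrArg Subtype.val h)

/-- precomposition with a map, as an algebra homomorphism -/
noncomputable def precomp {X Y : Type*} (f : X → Y) : (Y → Qb) →ₐ[R] (X → Qb) :=
  AlgHom.pi fun x => Pi.evalAlgHom R (fun _ => Qb) (f x)

@[simp] theorem precomp_apply {X Y : Type*} (f : X → Y) (φ : Y → Qb) (x : X) :
    precomp (R := R) f φ x = φ (f x) := rfl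

variable {M : Type}

/-- `φ ⊗ ψ ↦ ((x, y) ↦ φ x * ψ y)`, as an algebra homomorphism -/
noncomputable def ev₂ (H : Subalgebra R (M → Qb)) : ↥H ⊗[R] ↥H →ₐ[R] (M × M → Qb) :=
  Algebra.TensorProduct.lift ((precomp Prod.fst).comp H.val) ((precomp Prod.snd).comp H.val)
    (fun _ _ => Commute.all _ _)

@[simp] theorem ev₂_tmul (H : Subalgebra R (M → Qb)) (φ ψ : ↥H) (p : M × M) :
    ev₂ H (φ ⊗ₜ[R] ψ) p = (φ : M → Qb) p.1 * (ψ : M → Qb) p.2 := by
  simp [ev₂]

theorem ev₂_eq_evL (H : Subalgebra R (M → Qb)) :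
    (ev₂ H).toLinearMap = evL H.val.toLinearMap H.val.toLinearMap := by
  apply TensorProduct.ext'
  intro φ ψ
  funext p
  simp only [AlgHom.toLinearMap_apply, ev₂_tmul]
  exact (evL_tmul H.val.toLinearMap H.val.toLinearMap φ ψ p).symm


/-! ### Hopf orders -/

variable [AddCommGroup M]

/-- **Hopf orders** in the algebra of equivariant functions on the Galois module `M`. -/
structure IsHopfOrder (act : Gal → M → M) (H : Subalgebra R (M → Qb)) : Prop where
  finite : Module.Finite R ↥H
  equivariant : ∀ φ ∈ H, IsEquivariant act φ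
  separates : ∀ x y : M, x ≠ y → ∃ φ ∈ H, φ x ≠ φ y
  comul_mem : ∀ φ ∈ H, (fun p : M × M => φ (p.1 + p.2)) ∈ (ev₂ H).range
  antipode_mem : ∀ φ ∈ H, (fun x : M => φ (-x)) ∈ H
  counit_mem : ∀ φ ∈ H, φ 0 ∈ (algebraMap R Qb).range

namespace IsHopfOrder

variable [Finite M] [IsPrincipalIdealRing R] {act : Gal → M → M} {H : Subalgebra R (M → Qb)}
  (hH : IsHopfOrder act H) (hact : ∀ σ, Function.Surjective (act σ))

include hH

theorem free : Module.Free R ↥H := by
  have := hH.finite
  exact Module.free_of_finite_type_torsion_free'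

/-- index set of the chosen basis -/
abbrev Idx : Type := @Module.Free.ChooseBasisIndex R ↥H _ _ _ hH.free

/-- a basis of the order -/
noncomputable def bas : Module.Basis hH.Idx R ↥H :=
  @Module.Free.chooseBasis R ↥H _ _ _ hH.free

theorem bas_indepR : LinearIndependent R (fun i => ((hH.bas i : ↥H) : M → Qb)) := by
  have h := hH.bas.linearIndependent
  have h2 := h.map' (Subalgebra.toSubmodule H).subtype (Submodule.ker_subtype _)
  exact h2

include hact in
theorem bas_indep : LinearIndependent Qb (fun i => ((hH.bas i : ↥H) : M → Qb)) :=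
  linearIndependent_of_equivariant R act hact _ (fun i => hH.equivariant _ (hH.bas i).2)
    hH.bas_indepR

include hact in
theorem ev₂_injective : Function.Injective (ev₂ H) := by
  have h := evL_injective H.val.toLinearMap H.val.toLinearMap hH.bas
    (hH.bas_indep hact) Subtype.val_injective
  rw [← ev₂_eq_evL] at h
  exact h


/-- the coercion of an element of the order, in terms of the basis -/
theorem coe_eq_sum (φ : ↥H) :
    (φ : M → Qb) = ∑ i ∈ (hH.bas.repr φ).support,
      algebraMap R Qb (hH.bas.repr φ i) • ((hH.bas i : ↥H) : M → Qb) := by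
  have h1 := hH.bas.linearCombination_repr φ
  rw [Finsupp.linearCombination_apply, Finsupp.sum] at h1
  have h2 := congrArg (Subalgebra.toSubmodule H).subtype h1
  rw [map_sum] at h2
  rw [show (φ : M → Qb) = (Subalgebra.toSubmodule H).subtype φ from rfl, ← h2]
  refine Finset.sum_congr rfl fun i _ => ?_
  rw [map_smul, algebraMap_smul]
  rfl

include hact in
theorem bas_span :
    Submodule.span Qb (Set.range fun i => ((hH.bas i : ↥H) : M → Qb)) = ⊤ := by
  rw [eq_top_iff, ← span_eq_top_of_separates H.toSubsemiring.toSubmonoid hH.separates]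
  apply Submodule.span_le.2
  intro φ hφ
  rw [show φ = ((⟨φ, hφ⟩ : ↥H) : M → Qb) from rfl, hH.coe_eq_sum ⟨φ, hφ⟩]
  exact Submodule.sum_mem _ fun i _ =>
    Submodule.smul_mem _ _ (Submodule.subset_span (Set.mem_range_self i))

/-- the basis of the order is a `ℚ̄`-basis of all functions -/
noncomputable def basQ : Module.Basis hH.Idx Qb (M → Qb) :=
  Module.Basis.mk (hH.bas_indep hact) (by rw [hH.bas_span hact])

theorem basQ_apply (i : hH.Idx) : hH.basQ hact i = ((hH.bas i : ↥H) : M → Qb) :=
  Module.Basis.mk_apply _ _ i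

include hact in
/-- **every `R`-algebra homomorphism `H → ℚ̄` is the evaluation at a point of `M`** -/
theorem exists_eval_of_algHom (χ : ↥H →ₐ[R] Qb) :
    ∃ x : M, ∀ φ : ↥H, χ φ = (φ : M → Qb) x := by
  classical
  -- the `ℚ̄`-linear extension
  set χ' : (M → Qb) →ₗ[Qb] Qb := (hH.basQ hact).constr Qb (fun i => χ (hH.bas i)) with hχ'
  have hbas : ∀ i, χ' ((hH.bas i : ↥H) : M → Qb) = χ (hH.bas i) := by
    intro i
    rw [← hH.basQ_apply hact i, hχ', Module.Basis.constr_basis]
  have hext : ∀ φ : ↥H, χ' (φ : M → Qb) = χ φ := by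
    intro φ
    rw [hH.coe_eq_sum φ, map_sum]
    have h1 := hH.bas.linearCombination_repr φ
    rw [Finsupp.linearCombination_apply, Finsupp.sum] at h1
    conv_rhs => rw [← h1, map_sum]
    refine Finset.sum_congr rfl fun i _ => ?_
    rw [map_smul, hbas, map_smul, smul_eq_mul, Algebra.smul_def]
  -- multiplicativity
  have hmul : ∀ f g : M → Qb, χ' (f * g) = χ' f * χ' g := by
    have h2 : (LinearMap.mul Qb (M → Qb)).compr₂ χ' =
        (LinearMap.mul Qb Qb).compl₁₂ χ' χ' := by
      refine (hH.basQ hact).ext fun i => (hH.basQ hact).ext fun j => ?_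
      simp only [LinearMap.compr₂_apply, LinearMap.mul_apply', LinearMap.compl₁₂_apply]
      rw [hH.basQ_apply, hH.basQ_apply, hbas, hbas]
      have h3 : ((hH.bas i : ↥H) : M → Qb) * ((hH.bas j : ↥H) : M → Qb) =
          ((hH.bas i * hH.bas j : ↥H) : M → Qb) := rfl
      rw [h3, hext, map_mul]
    intro f g
    have h4 := LinearMap.congr_fun (LinearMap.congr_fun h2 f) g
    simpa only [LinearMap.compr₂_apply, LinearMap.mul_apply', LinearMap.compl₁₂_apply] using h4
  have hone : χ' 1 = 1 := by
    have h5 := hext 1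
    rw [map_one] at h5
    exact h5
  obtain ⟨x, hx⟩ := exists_eq_eval (AlgHom.ofLinearMap χ' hone hmul)
  refine ⟨x, fun φ => ?_⟩
  rw [← hext φ]
  exact hx _


/-! ### The structure maps -/

omit hH in
theorem algebraMap_injective : Function.Injective (algebraMap R Qb) := by
  intro a b h
  have h1 : algebraMap ℚ Qb (a : ℚ) = algebraMap ℚ Qb (b : ℚ) := h
  exact Subtype.ext ((algebraMap ℚ Qb).injective h1)

/-- `φ ↦ ((x, y) ↦ φ (x + y))` -/
noncomputable def comulFun (H : Subalgebra R (M → Qb)) : ↥H →ₐ[R] (M × M → Qb) :=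
  (precomp fun p : M × M => p.1 + p.2).comp H.val

omit hH [Finite M] [IsPrincipalIdealRing R] in
@[simp] theorem comulFun_apply (φ : ↥H) (p : M × M) :
    comulFun H φ p = (φ : M → Qb) (p.1 + p.2) := rfl

/-- the comultiplication -/
noncomputable def comulAlg : ↥H →ₐ[R] ↥H ⊗[R] ↥H :=
  ((AlgEquiv.ofInjective (ev₂ H) (hH.ev₂_injective hact)).symm : _ →ₐ[R] _).comp
    ((comulFun H).codRestrict (ev₂ H).range fun φ => hH.comul_mem φ φ.2)

theorem ev₂_comulAlg (φ : ↥H) (p : M × M) :
    ev₂ H (hH.comulAlg hact φ) p = (φ : M → Qb) (p.1 + p.2) := by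
  set e := AlgEquiv.ofInjective (ev₂ H) (hH.ev₂_injective hact) with he
  set y : ↥(ev₂ H).range := (comulFun H).codRestrict (ev₂ H).range
    (fun φ => hH.comul_mem φ φ.2) φ with hy
  have h1 : ev₂ H (e.symm y) = (y : M × M → Qb) := by
    have h2 : ((e (e.symm y) : ↥(ev₂ H).range) : M × M → Qb) = ev₂ H (e.symm y) :=
      AlgEquiv.ofInjective_apply (ev₂ H) (hH.ev₂_injective hact) (e.symm y)
    rw [← h2, AlgEquiv.apply_symm_apply]
  have h3 : hH.comulAlg hact φ = e.symm y := rfl
  rw [h3, h1]
  rfl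

/-- evaluation at `0` -/
noncomputable def ev0 (H : Subalgebra R (M → Qb)) : ↥H →ₐ[R] Qb :=
  (Pi.evalAlgHom R (fun _ : M => Qb) 0).comp H.val

/-- the counit -/
noncomputable def counitAlg : ↥H →ₐ[R] R :=
  ((AlgEquiv.ofInjective (Algebra.ofId R Qb) algebraMap_injective).symm : _ →ₐ[R] _).comp
    ((ev0 H).codRestrict (Algebra.ofId R Qb).range fun φ => by
      obtain ⟨r, hr⟩ := hH.counit_mem φ φ.2
      exact ⟨r, hr⟩)

theorem algebraMap_counitAlg (φ : ↥H) :
    algebraMap R Qb (hH.counitAlg φ) = (φ : M → Qb) 0 := by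
  set e := AlgEquiv.ofInjective (Algebra.ofId R Qb) (algebraMap_injective (R := R)) with he
  set y : ↥(Algebra.ofId R Qb).range := (ev0 H).codRestrict (Algebra.ofId R Qb).range
    (fun φ => by
      obtain ⟨r, hr⟩ := hH.counit_mem φ φ.2
      exact ⟨r, hr⟩) φ with hy
  have h1 : Algebra.ofId R Qb (e.symm y) = (y : Qb) := by
    have h2 : ((e (e.symm y) : ↥(Algebra.ofId R Qb).range) : Qb) =
        Algebra.ofId R Qb (e.symm y) :=
      AlgEquiv.ofInjective_apply (Algebra.ofId R Qb) algebraMap_injective (e.symm y)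
    rw [← h2, AlgEquiv.apply_symm_apply]
  have h3 : hH.counitAlg φ = e.symm y := rfl
  rw [h3]
  exact h1

/-- the antipode -/
noncomputable def antipodeLin : ↥H →ₗ[R] ↥H where
  toFun φ := ⟨fun x => (φ : M → Qb) (-x), hH.antipode_mem φ φ.2⟩
  map_add' _ _ := rfl
  map_smul' _ _ := rfl

theorem antipodeLin_apply (φ : ↥H) (x : M) :
    ((hH.antipodeLin φ : ↥H) : M → Qb) x = (φ : M → Qb) (-x) := rfl


/-! ### Functions of three variables -/

/-- `φ ⊗ w ↦ ((x, (y, z)) ↦ φ x * ev₂ w (y, z))` -/
noncomputable def ev₃ (H : Subalgebra R (M → Qb)) :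
    ↥H ⊗[R] (↥H ⊗[R] ↥H) →ₗ[R] (M × (M × M) → Qb) :=
  evL H.val.toLinearMap (ev₂ H).toLinearMap

omit hH [Finite M] [IsPrincipalIdealRing R] in
@[simp] theorem ev₃_tmul (φ : ↥H) (w : ↥H ⊗[R] ↥H) (p : M × (M × M)) :
    ev₃ H (φ ⊗ₜ[R] w) p = (φ : M → Qb) p.1 * ev₂ H w p.2 :=
  evL_tmul H.val.toLinearMap (ev₂ H).toLinearMap φ w p

include hact in
theorem ev₃_injective : Function.Injective (ev₃ H) :=
  evL_injective H.val.toLinearMap (ev₂ H).toLinearMap hH.bas
    (hH.bas_indep hact) (hH.ev₂_injective hact)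

omit hH [Finite M] [IsPrincipalIdealRing R] in
theorem ev₃_assoc_tmul (u : ↥H ⊗[R] ↥H) (ψ : ↥H) (x y z : M) :
    ev₃ H (Algebra.TensorProduct.assoc R R R ↥H ↥H ↥H (u ⊗ₜ[R] ψ)) (x, (y, z)) =
      ev₂ H u (x, y) * (ψ : M → Qb) z := by
  induction u using TensorProduct.induction_on with
  | zero => simp
  | tmul a b =>
    rw [Algebra.TensorProduct.assoc_tmul, ev₃_tmul, ev₂_tmul, ev₂_tmul, mul_assoc]
  | add u v hu hv =>
    rw [TensorProduct.add_tmul, map_add, map_add, map_add, Pi.add_apply, Pi.add_apply, hu, hv,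
      add_mul]

theorem ev₃_assoc_map_comul (w : ↥H ⊗[R] ↥H) (x y z : M) :
    ev₃ H (Algebra.TensorProduct.assoc R R R ↥H ↥H ↥H
      (Algebra.TensorProduct.map (hH.comulAlg hact) (AlgHom.id R ↥H) w)) (x, (y, z)) =
      ev₂ H w (x + y, z) := by
  induction w using TensorProduct.induction_on with
  | zero => simp
  | tmul a b =>
    rw [Algebra.TensorProduct.map_tmul, ev₃_assoc_tmul, hH.ev₂_comulAlg hact, ev₂_tmul]
    rfl
  | add u v hu hv =>
    rw [map_add, map_add, map_add, map_add, Pi.add_apply, Pi.add_apply, hu, hv]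

theorem ev₃_map_comul (w : ↥H ⊗[R] ↥H) (x y z : M) :
    ev₃ H (Algebra.TensorProduct.map (AlgHom.id R ↥H) (hH.comulAlg hact) w) (x, (y, z)) =
      ev₂ H w (x, y + z) := by
  induction w using TensorProduct.induction_on with
  | zero => simp
  | tmul a b =>
    rw [Algebra.TensorProduct.map_tmul, ev₃_tmul, hH.ev₂_comulAlg hact, ev₂_tmul]
    rfl
  | add u v hu hv =>
    rw [map_add, map_add, map_add, Pi.add_apply, Pi.add_apply, hu, hv]

theorem coe_lid_map_counit (w : ↥H ⊗[R] ↥H) (x : M) :
    ((Algebra.TensorProduct.lid R ↥H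
      (Algebra.TensorProduct.map hH.counitAlg (AlgHom.id R ↥H) w) : ↥H) : M → Qb) x =
      ev₂ H w (0, x) := by
  induction w using TensorProduct.induction_on with
  | zero => simp
  | tmul a b =>
    rw [Algebra.TensorProduct.map_tmul, Algebra.TensorProduct.lid_tmul, ev₂_tmul]
    show (hH.counitAlg a • (b : M → Qb)) x = _
    rw [Pi.smul_apply, Algebra.smul_def, hH.algebraMap_counitAlg]
  | add u v hu hv =>
    rw [map_add, map_add, map_add]
    show ((_ : ↥H) : M → Qb) x + ((_ : ↥H) : M → Qb) x = _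
    rw [hu, hv]
    rfl

theorem coe_rid_map_counit (w : ↥H ⊗[R] ↥H) (x : M) :
    ((Algebra.TensorProduct.rid R R ↥H
      (Algebra.TensorProduct.map (AlgHom.id R ↥H) hH.counitAlg w) : ↥H) : M → Qb) x =
      ev₂ H w (x, 0) := by
  induction w using TensorProduct.induction_on with
  | zero => simp
  | tmul a b =>
    rw [Algebra.TensorProduct.map_tmul, Algebra.TensorProduct.rid_tmul, ev₂_tmul]
    show (hH.counitAlg b • (a : M → Qb)) x = _
    rw [Pi.smul_apply, Algebra.smul_def, hH.algebraMap_counitAlg, mul_comm]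
  | add u v hu hv =>
    rw [map_add, map_add, map_add]
    show ((_ : ↥H) : M → Qb) x + ((_ : ↥H) : M → Qb) x = _
    rw [hu, hv]
    rfl


/-! ### The Hopf algebra -/

/-- **the bialgebra structure of a Hopf order** -/
@[reducible] noncomputable def bialgebra : Bialgebra R ↥H :=
  Bialgebra.ofAlgHom (hH.comulAlg hact) hH.counitAlg
    (by
      refine AlgHom.ext fun φ => hH.ev₃_injective hact ?_
      funext ⟨x, y, z⟩
      simp only [AlgHom.comp_apply, AlgEquiv.coe_toAlgHom]
      rw [hH.ev₃_assoc_map_comul hact, hH.ev₃_map_comul hact, hH.ev₂_comulAlg hact,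
        hH.ev₂_comulAlg hact, add_assoc])
    (by
      refine AlgHom.ext fun φ => (Algebra.TensorProduct.lid R ↥H).injective (Subtype.ext ?_)
      funext x
      rw [AlgHom.comp_apply, hH.coe_lid_map_counit, hH.ev₂_comulAlg hact, zero_add]
      simp)
    (by
      refine AlgHom.ext fun φ => (Algebra.TensorProduct.rid R R ↥H).injective (Subtype.ext ?_)
      funext x
      rw [AlgHom.comp_apply, hH.coe_rid_map_counit, hH.ev₂_comulAlg hact, add_zero]
      simp)


theorem coe_mul_rTensor_antipode (w : ↥H ⊗[R] ↥H) (x : M) :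
    ((LinearMap.mul' R ↥H (LinearMap.rTensor ↥H hH.antipodeLin w) : ↥H) : M → Qb) x =
      ev₂ H w (-x, x) := by
  induction w using TensorProduct.induction_on with
  | zero => simp
  | tmul a b =>
    rw [LinearMap.rTensor_tmul, LinearMap.mul'_apply, ev₂_tmul]
    rfl
  | add u v hu hv =>
    rw [map_add, map_add, map_add]
    show ((_ : ↥H) : M → Qb) x + ((_ : ↥H) : M → Qb) x = _
    rw [hu, hv]
    rfl

theorem coe_mul_lTensor_antipode (w : ↥H ⊗[R] ↥H) (x : M) :
    ((LinearMap.mul' R ↥H (LinearMap.lTensor ↥H hH.antipodeLin w) : ↥H) : M → Qb) x =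
      ev₂ H w (x, -x) := by
  induction w using TensorProduct.induction_on with
  | zero => simp
  | tmul a b =>
    rw [LinearMap.lTensor_tmul, LinearMap.mul'_apply, ev₂_tmul]
    rfl
  | add u v hu hv =>
    rw [map_add, map_add, map_add]
    show ((_ : ↥H) : M → Qb) x + ((_ : ↥H) : M → Qb) x = _
    rw [hu, hv]
    rfl

omit hH [Finite M] [IsPrincipalIdealRing R] in
theorem ev₂_comm (w : ↥H ⊗[R] ↥H) (x y : M) :
    ev₂ H (TensorProduct.comm R ↥H ↥H w) (x, y) = ev₂ H w (y, x) := by
  induction w using TensorProduct.induction_on with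
  | zero => simp
  | tmul a b =>
    rw [TensorProduct.comm_tmul, ev₂_tmul, ev₂_tmul, mul_comm]
  | add u v hu hv =>
    rw [map_add, map_add, map_add, Pi.add_apply, Pi.add_apply, hu, hv]

/-- **the Hopf algebra structure of a Hopf order** -/
@[reducible] noncomputable def hopfAlgebra : HopfAlgebra R ↥H :=
  letI := hH.bialgebra hact
  { antipode := hH.antipodeLin
    mul_antipode_rTensor_comul := by
      refine LinearMap.ext fun φ => Subtype.ext ?_
      funext x
      show ((LinearMap.mul' R ↥H (LinearMap.rTensor ↥H hH.antipodeLin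
        (hH.comulAlg hact φ)) : ↥H) : M → Qb) x =
          ((algebraMap R ↥H (hH.counitAlg φ) : ↥H) : M → Qb) x
      rw [hH.coe_mul_rTensor_antipode, hH.ev₂_comulAlg hact, neg_add_cancel]
      show _ = algebraMap R Qb (hH.counitAlg φ)
      rw [hH.algebraMap_counitAlg]
    mul_antipode_lTensor_comul := by
      refine LinearMap.ext fun φ => Subtype.ext ?_
      funext x
      show ((LinearMap.mul' R ↥H (LinearMap.lTensor ↥H hH.antipodeLin
        (hH.comulAlg hact φ)) : ↥H) : M → Qb) x =
          ((algebraMap R ↥H (hH.counitAlg φ) : ↥H) : M → Qb) x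
      rw [hH.coe_mul_lTensor_antipode, hH.ev₂_comulAlg hact, add_neg_cancel]
      show _ = algebraMap R Qb (hH.counitAlg φ)
      rw [hH.algebraMap_counitAlg] }

theorem isCocomm :
    letI := hH.hopfAlgebra hact
    Coalgebra.IsCocomm R ↥H := by
  let _ := hH.hopfAlgebra hact
  refine ⟨LinearMap.ext fun φ => hH.ev₂_injective hact ?_⟩
  funext ⟨x, y⟩
  show ev₂ H (TensorProduct.comm R ↥H ↥H (hH.comulAlg hact φ)) (x, y) =
    ev₂ H (hH.comulAlg hact φ) (x, y)
  rw [ev₂_comm, hH.ev₂_comulAlg hact, hH.ev₂_comulAlg hact, add_comm]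


/-! ### The points of the Hopf algebra -/

omit hH [Finite M] [IsPrincipalIdealRing R] in
/-- evaluation at a point of `M` -/
noncomputable def evalHom (H : Subalgebra R (M → Qb)) (x : M) : ↥H →ₐ[R] Qb :=
  (Pi.evalAlgHom R (fun _ : M => Qb) x).comp H.val

omit hH [Finite M] [IsPrincipalIdealRing R] in
@[simp] theorem evalHom_apply (x : M) (φ : ↥H) : evalHom H x φ = (φ : M → Qb) x := rfl

theorem evalHom_injective : Function.Injective (evalHom H) := by
  intro x y h
  by_contra hne
  obtain ⟨φ, hφ, hφne⟩ := hH.separates x y hne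
  exact hφne (AlgHom.congr_fun h ⟨φ, hφ⟩)

include hact in
theorem evalHom_surjective : Function.Surjective (evalHom H) := by
  intro χ
  obtain ⟨x, hx⟩ := hH.exists_eval_of_algHom hact χ
  exact ⟨x, AlgHom.ext fun φ => (hx φ).symm⟩

include hact in
/-- **The finite flat cocommutative Hopf algebra attached to a Hopf order**: the conclusion of the
frozen statements S19 and S32 for the Galois module `M`. -/
theorem exists_hopfAlgebra :
    ∃ (H' : Type) (_ : CommRing H') (_ : HopfAlgebra R H'),
      Module.Finite R H' ∧ Module.Flat R H' ∧ Coalgebra.IsCocomm R H' ∧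
      ∃ e : WithConv (H' →ₐ[R] Qb) ≃ M,
        (∀ f g : WithConv (H' →ₐ[R] Qb), e (f * g) = e f + e g) ∧
        ∀ (σ : Gal) (f g : WithConv (H' →ₐ[R] Qb)),
          (∀ h : H', g h = σ (f h)) → e g = act σ (e f) := by
  let _ := hH.hopfAlgebra hact
  have hfree : Module.Free R ↥H := hH.free
  -- the bijection `x ↦ evalHom x`
  set e₀ : M ≃ WithConv (↥H →ₐ[R] Qb) :=
    (Equiv.ofBijective (evalHom H) ⟨hH.evalHom_injective, hH.evalHom_surjective hact⟩).trans
      (WithConv.equiv _).symm with he₀
  have he₀_apply : ∀ (x : M) (φ : ↥H), (e₀ x) φ = (φ : M → Qb) x := fun _ _ => rfl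
  have hext : ∀ f g : WithConv (↥H →ₐ[R] Qb), (∀ φ : ↥H, f φ = g φ) → f = g := by
    intro f g h
    apply WithConv.ext
    exact AlgHom.ext h
  have hmul : ∀ x y : M, e₀ (x + y) = e₀ x * e₀ y := by
    intro x y
    apply hext
    intro φ
    rw [AlgHom.convMul_apply, he₀_apply]
    have h1 : ∀ w : ↥H ⊗[R] ↥H,
        Algebra.TensorProduct.lift (e₀ x).ofConv (e₀ y).ofConv (fun _ _ => Commute.all _ _) w =
          ev₂ H w (x, y) := by
      intro w
      induction w using TensorProduct.induction_on with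
      | zero => simp
      | tmul a b => rw [Algebra.TensorProduct.lift_tmul, ev₂_tmul]; rfl
      | add u v hu hv => rw [map_add, map_add, Pi.add_apply, hu, hv]
    show _ = Algebra.TensorProduct.lift (e₀ x).ofConv (e₀ y).ofConv
      (fun _ _ => Commute.all _ _) (hH.comulAlg hact φ)
    rw [h1, hH.ev₂_comulAlg hact]
  refine ⟨↥H, inferInstance, inferInstance, hH.finite, inferInstance, hH.isCocomm hact,
    e₀.symm, ?_, ?_⟩
  · intro f g
    apply e₀.injective
    rw [Equiv.apply_symm_apply, hmul, Equiv.apply_symm_apply, Equiv.apply_symm_apply]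
  · intro σ f g hfg
    apply e₀.injective
    rw [Equiv.apply_symm_apply]
    apply hext
    intro φ
    rw [he₀_apply, hH.equivariant φ φ.2 σ, hfg φ]
    congr 1
    have h2 : f = e₀ (e₀.symm f) := (Equiv.apply_symm_apply _ _).symm
    conv_lhs => rw [h2]
    exact he₀_apply _ _

end IsHopfOrder

end Fermat.Agent.S19.HopfOrder
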