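/-
S19 / S32, abstract block: **bridge** from the interface `Fermat.Agent.S19.Abs.IsHopfOrder`
(equivariant, finitely generated, separating, closed under comultiplication) to the conclusion
`Fermat.Agent.S19.Abs.HasHopfModel` (the frozen `∃`-shape of S19 / `IsFlatAt`), through the
construction of `Fermat.Agent.S19.HopfOrder` (generic over a principal subring `R ⊆ ℚ`).

The antipode `φ ↦ φ ∘ (-·)` is obtained from the comultiplication: `-y = (#M - 1) • y`, and
`φ ∘ (k • ·)` is in the order by induction on `k`; the counit is `Base.const_zero_mem`.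
-/
import Mathlib
import Fermat.Agent.S19.HopfOrder
import Fermat.Agent.S19.Abs.Defs
import Fermat.Agent.S19.Base.Counit
import Fermat.Agent.S28.LocalizedInt

set_option autoImplicit false

open TensorProduct

namespace Fermat.Agent.S19.HopfOrderBridge

open GaloisRep Fermat.Agent.S19.Abs Fermat.Agent.S19.Base

variable {ℓ : ℕ} [Fact ℓ.Prime] {M : Type} [AddCommGroup M] {act : GQ → M → M}
  {Hs : Subalgebra (ratLocalizedAt ℓ) (M → Qb)}

/-- a Galois action is by bijections -/
theorem act_surjective (hact : IsGalAction act) (σ : GQ) : Function.Surjective (act σ) := by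
  intro y
  refine ⟨act σ⁻¹ y, ?_⟩
  rw [← hact.mul, mul_inv_cancel, hact.one]

/-- the constant function `φ 0` is in the order -/
theorem const_mem (hact : IsGalAction act) (h : Abs.IsHopfOrder ℓ act Hs) {φ : M → Qb}
    (hφ : φ ∈ Hs) : (fun _ : M => φ 0) ∈ Hs := by
  obtain ⟨r, hr⟩ := const_zero_mem ℓ hact h φ hφ
  have h1 : (fun _ : M => φ 0) = algebraMap (ratLocalizedAt ℓ) (M → Qb) r := by
    funext y
    rw [hr]
    rfl
  rw [h1]
  exact Hs.algebraMap_mem r

/-- `φ ∘ (k • ·)` is in the order -/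
theorem nsmul_comp_mem (hact : IsGalAction act) (h : Abs.IsHopfOrder ℓ act Hs) (k : ℕ) :
    ∀ φ ∈ Hs, (fun y : M => φ (k • y)) ∈ Hs := by
  induction k with
  | zero =>
    intro φ hφ
    simp only [zero_smul]
    exact const_mem hact h hφ
  | succ k ih =>
    intro φ hφ
    obtain ⟨n, a, b, ha, hb, hab⟩ := h.comul φ hφ
    have h1 : (fun y : M => φ ((k + 1) • y)) = ∑ j, (fun y : M => a j (k • y)) * b j := by
      funext y
      rw [succ_nsmul, hab, Finset.sum_apply]
      rfl
    rw [h1]
    exact Hs.sum_mem fun j _ => Hs.mul_mem (ih (a j) (ha j)) (hb j)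

/-- the antipode preserves the order -/
theorem neg_comp_mem [Finite M] (hact : IsGalAction act) (h : Abs.IsHopfOrder ℓ act Hs) :
    ∀ φ ∈ Hs, (fun y : M => φ (-y)) ∈ Hs := by
  intro φ hφ
  have hpos : 0 < Nat.card M := Nat.card_pos
  have h1 : (fun y : M => φ (-y)) = fun y : M => φ ((Nat.card M - 1) • y) := by
    funext y
    congr 1
    have h2 : (Nat.card M - 1) • y + y = 0 := by
      rw [← succ_nsmul, Nat.sub_add_cancel hpos]
      exact card_nsmul_eq_zero'
    exact (eq_neg_of_add_eq_zero_left h2).symm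
  rw [h1]
  exact nsmul_comp_mem hact h _ φ hφ

/-- the interface of `S19/Abs/Defs` implies the hypotheses of `S19/HopfOrder` -/
theorem isHopfOrder [Finite M] (hact : IsGalAction act) (h : Abs.IsHopfOrder ℓ act Hs) :
    HopfOrder.IsHopfOrder act Hs where
  finite := Module.Finite.iff_fg.2 h.fg
  equivariant := fun φ hφ σ y => h.equivariant φ hφ σ y
  separates := h.separates
  comul_mem := by
    intro φ hφ
    obtain ⟨n, a, b, ha, hb, hab⟩ := h.comul φ hφ
    refine ⟨∑ j, (⟨a j, ha j⟩ : ↥Hs) ⊗ₜ[ratLocalizedAt ℓ] (⟨b j, hb j⟩ : ↥Hs), ?_⟩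
    funext p
    show HopfOrder.ev₂ Hs _ p = _
    rw [map_sum, Finset.sum_apply, hab]
    refine Finset.sum_congr rfl fun j _ => ?_
    rw [HopfOrder.ev₂_tmul]
  antipode_mem := neg_comp_mem hact h
  counit_mem := by
    intro φ hφ
    obtain ⟨r, hr⟩ := const_zero_mem ℓ hact h φ hφ
    exact ⟨r, hr.symm⟩

/-- **Main theorem of the abstract block**: a Hopf order gives a finite flat cocommutative Hopf
algebra over `ℤ_(ℓ)` whose `ℚ̄`-points are the Galois module `M`. -/
theorem hasHopfModel_of_isHopfOrder' (ℓ : ℕ) [Fact ℓ.Prime] {M : Type} [AddCommGroup M]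
    [Finite M] {act : GQ → M → M} (hact : IsGalAction act)
    {Hs : Subalgebra (ratLocalizedAt ℓ) (M → Qb)} (h : Abs.IsHopfOrder ℓ act Hs) :
    HasHopfModel ℓ act :=
  (isHopfOrder hact h).exists_hopfAlgebra (act_surjective hact)

end Fermat.Agent.S19.HopfOrderBridge
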